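import Fermat.Agent.LT.A2.WeilLocal

/-!
# Row LT, tower A2, station WeilLocalC, leaf A2.03.3 `WL.LiftContC` (helper989)

OFF-MAIN.  PROVED: `liftCont989 : WL.LiftContC` -- the theta lift of good data is continuous.

Only `T1Out.locComp` (local compactness, Hausdorff, second countability of `GL₂(𝔸_K)`),
`D.Good` (`torus`, `measured`, `regular`) and `TorusOpenC` are used; the certificate `IsStd`
is not needed.
-/

set_option autoImplicit false
set_option linter.style.haveILetI false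

open IsDedekindDomain NumberField AutomorphicForm MeasureTheory
open scoped MatrixGroups Topology

noncomputable section

namespace Fermat.Agent.LT.A2.H989

open Fermat.Agent.LT.H130 Fermat.Agent.LT.H556 Fermat.Agent.LT.A2

variable {K : Type} [Field K] [NumberField K]

/-! ## The torus is a group -/

theorem inTorus_one989 (t n : K) : InTorus t n (1 : A0.G K) := by
  refine ⟨1, 0, ?_⟩
  ext i j
  fin_cases i <;> fin_cases j <;> simp [torMat]

theorem inTorus_mul989 (t n : K) {m m' : A0.G K} (h : InTorus t n m) (h' : InTorus t n m') :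
    InTorus t n (m * m') := by
  obtain ⟨a, b, hm⟩ := h
  obtain ⟨a', b', hm'⟩ := h'
  refine ⟨a * a' - algebraMap K (A0.Adl K) n * b * b',
    a * b' + a' * b + algebraMap K (A0.Adl K) t * b * b', ?_⟩
  rw [Units.val_mul, hm, hm']
  ext i j
  fin_cases i <;> fin_cases j <;> simp [torMat, Matrix.mul_apply, Fin.sum_univ_two] <;> ring

theorem inTorus_inv989 (t n : K) {m : A0.G K} (h : InTorus t n m) : InTorus t n m⁻¹ := by
  obtain ⟨a, b, hm⟩ := h
  refine ⟨Ring.inverse (Matrix.det (m : Matrix (Fin 2) (Fin 2) (A0.Adl K)))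
      * (a + algebraMap K (A0.Adl K) t * b),
    -(Ring.inverse (Matrix.det (m : Matrix (Fin 2) (Fin 2) (A0.Adl K))) * b), ?_⟩
  rw [Matrix.coe_units_inv, Matrix.inv_def, Matrix.adjugate_fin_two, hm]
  ext i j
  fin_cases i <;> fin_cases j <;> simp [torMat] <;> ring

theorem adm_one989 (t n : K) : Adm t n (1 : A0.G K) 1 := ⟨inTorus_one989 t n, rfl⟩

theorem adm_mul989 (t n : K) {g m g' m' : A0.G K} (h : Adm t n g m) (h' : Adm t n g' m') :
    Adm t n (g * g') (m * m') :=
  ⟨inTorus_mul989 t n h.1 h'.1, by rw [map_mul, map_mul, h.2, h'.2]⟩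

theorem adm_inv989 (t n : K) {g m : A0.G K} (h : Adm t n g m) : Adm t n g⁻¹ m⁻¹ :=
  ⟨inTorus_inv989 t n h.1, by rw [map_inv, map_inv, h.2]⟩

theorem adm_torus1_mul989 (t n : K) {g m m' : A0.G K} (h : Adm t n g m)
    (h' : InTorus1 t n m') : Adm t n g (m' * m) :=
  ⟨inTorus_mul989 t n h'.1 h.1, by rw [map_mul, h'.2, one_mul, h.2]⟩

theorem inGPlus_one989 (t n : K) : InGPlus t n (1 : A0.G K) := ⟨1, adm_one989 t n⟩

theorem inGPlus_mul_inv989 (t n : K) {g g' : A0.G K} (h : InGPlus t n g)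
    (h' : InGPlus t n g') : InGPlus t n (g * g'⁻¹) := by
  obtain ⟨m, hm⟩ := h
  obtain ⟨m', hm'⟩ := h'
  exact ⟨m * m'⁻¹, adm_mul989 t n hm (adm_inv989 t n hm')⟩

/-! ## Elementary bounds -/

theorem norm_chiT_le989 {t n : K} {χT : A0.G K → ℂ} (hχ : IsTorusChar t n χT) {m : A0.G K}
    (hm : InTorus t n m) : ‖χT m‖ ≤ 1 := by
  obtain ⟨k, hk, hpow⟩ := hχ.fin_order
  have h1 : ‖χT m‖ ^ k = 1 := by rw [← norm_pow, hpow m hm, norm_one]
  exact le_of_eq ((pow_eq_one_iff_of_nonneg (norm_nonneg _) hk.ne').1 h1)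

theorem norm_theta_le989 (D : KData K) {g m : A0.G K} {b : K × K → ℝ} (hb : Summable b)
    (h : ∀ ξ : K × K, ‖D.F g m (ratV ξ)‖ ≤ b ξ) : ‖D.theta g m‖ ≤ ∑' ξ, b ξ :=
  tsum_of_norm_bounded hb.hasSum h

/-! ## The integrand -/

/-- The integrand of the theta lift, as a function of `((g, m_g), m)`. -/
def integrand989 (D : KData K) (q : (A0.G K × A0.G K) × A0.G K) : ℂ :=
  D.theta q.1.1 (q.2 * q.1.2) * D.χT (q.2 * q.1.2)

/-- The domain of the integrand: `(g, m_g)` admissible, `m ∈ T¹(𝔸_K)`. -/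
def dom989 (D : KData K) : Set ((A0.G K × A0.G K) × A0.G K) :=
  {q | Adm D.t D.n q.1.1 q.1.2 ∧ InTorus1 D.t D.n q.2}

/-- The map `((g, m_g), m) ↦ (g, m m_g)`. -/
def shift989 (q : (A0.G K × A0.G K) × A0.G K) : A0.G K × A0.G K := (q.1.1, q.2 * q.1.2)

theorem continuous_shift989 : Continuous (shift989 (K := K)) := by
  unfold shift989
  fun_prop

theorem shift_mapsTo989 (D : KData K) (Q : Set ((A0.G K × A0.G K) × A0.G K)) :
    Set.MapsTo shift989 (dom989 D ∩ Q) {p : A0.G K × A0.G K | Adm D.t D.n p.1 p.2} :=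
  fun _ hq => adm_torus1_mul989 D.t D.n hq.1.1 hq.1.2

/-- The integrand is bounded on the compact subsets of its domain. -/
theorem integrand_bound989 (D : KData K) (hG : D.Good)
    (Q : Set ((A0.G K × A0.G K) × A0.G K)) (hQ : IsCompact Q) :
    ∃ B : ℝ, ∀ q ∈ dom989 D ∩ Q, ‖integrand989 D q‖ ≤ B := by
  obtain ⟨b, hb, hbound⟩ := hG.regular.loc_summable (shift989 '' Q)
    (hQ.image continuous_shift989)
  refine ⟨∑' ξ, b ξ, fun q hq => ?_⟩
  have hadm : Adm D.t D.n q.1.1 (q.2 * q.1.2) := shift_mapsTo989 D Q hq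
  have h1 : ‖D.theta q.1.1 (q.2 * q.1.2)‖ ≤ ∑' ξ, b ξ :=
    norm_theta_le989 D hb fun ξ => hbound ξ (shift989 q) ⟨q, hq.2, rfl⟩ hadm
  have h2 : ‖D.χT (q.2 * q.1.2)‖ ≤ 1 := norm_chiT_le989 hG.torus hadm.1
  have h0 : 0 ≤ ∑' ξ, b ξ := le_trans (norm_nonneg _) h1
  calc ‖integrand989 D q‖ = ‖D.theta q.1.1 (q.2 * q.1.2)‖ * ‖D.χT (q.2 * q.1.2)‖ := norm_mul _ _
    _ ≤ (∑' ξ, b ξ) * 1 := mul_le_mul h1 h2 (norm_nonneg _) h0
    _ = ∑' ξ, b ξ := mul_one _

/-- The integrand is continuous on the compact subsets of its domain. -/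
theorem integrand_continuousOn989 (D : KData K) (hG : D.Good)
    (Q : Set ((A0.G K × A0.G K) × A0.G K)) (hQ : IsCompact Q) :
    ContinuousOn (integrand989 D) (dom989 D ∩ Q) := by
  obtain ⟨b, hb, hbound⟩ := hG.regular.loc_summable (shift989 '' Q)
    (hQ.image continuous_shift989)
  have hmaps := shift_mapsTo989 D Q
  have hshift : ContinuousOn (shift989 (K := K)) (dom989 D ∩ Q) :=
    continuous_shift989.continuousOn
  have hθ : ContinuousOn (fun q : (A0.G K × A0.G K) × A0.G K => D.theta q.1.1 (q.2 * q.1.2))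
      (dom989 D ∩ Q) := by
    unfold KData.theta
    refine continuousOn_tsum (u := b) (fun ξ => ?_) hb (fun ξ q hq => ?_)
    · exact (hG.regular.cont_pair (ratV ξ)).comp hshift hmaps
    · exact hbound ξ (shift989 q) ⟨q, hq.2, rfl⟩ (hmaps hq)
  have hχ : ContinuousOn (fun q : (A0.G K × A0.G K) × A0.G K => D.χT (q.2 * q.1.2))
      (dom989 D ∩ Q) := by
    have h2 : ContinuousOn (fun q : (A0.G K × A0.G K) × A0.G K => q.2 * q.1.2)
        (dom989 D ∩ Q) := by
      apply Continuous.continuousOn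
      fun_prop
    exact hG.torus.cont.comp h2 fun q hq => (hmaps hq).1
  exact hθ.mul hχ

/-! ## The theta integral is continuous on the admissible pairs -/

/-- The theta integral as a function of the admissible pair `(g, m_g)`. -/
def Phi989 (D : KData K) (p : A0.G K × A0.G K) : ℂ :=
  D.intT D.DT fun m => integrand989 D (p, m)

theorem Phi_continuousWithinAt989 (D : KData K) (hT1 : T1.T1Out K) (hG : D.Good)
    (p₁ : A0.G K × A0.G K) (hp₁ : Adm D.t D.n p₁.1 p₁.2) :
    ContinuousWithinAt (Phi989 D) {p | Adm D.t D.n p.1 p.2} p₁ := by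
  obtain ⟨-, hlc, ht2, hsc⟩ := hT1.locComp
  haveI := hlc
  haveI := ht2
  haveI := hsc
  letI : MeasurableSpace (A0.G K) := borel (A0.G K)
  haveI : BorelSpace (A0.G K) := ⟨rfl⟩
  obtain ⟨C, hC, hDC⟩ := hG.measured.dom_compact
  obtain ⟨N, hN, hNnhds⟩ := exists_compact_mem_nhds p₁
  obtain ⟨B, hB⟩ := integrand_bound989 D hG (N ×ˢ C) (hN.prod hC)
  have hfin : D.μT D.DT < ⊤ :=
    lt_of_le_of_lt (measure_mono hDC) (hG.measured.compact_lt C hC)
  haveI : IsFiniteMeasure (D.μT.restrict D.DT) :=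
    ⟨by rw [Measure.restrict_apply_univ]; exact hfin⟩
  unfold Phi989 KData.intT
  refine continuousWithinAt_of_dominated (bound := fun _ => B) ?_ ?_ ?_ ?_
  · -- measurability
    refine eventually_nhdsWithin_of_forall fun p hp => ?_
    have hcont : ContinuousOn (fun m => integrand989 D (p, m)) D.DT := by
      have h1 := integrand_continuousOn989 D hG (({p} : Set (A0.G K × A0.G K)) ×ˢ C)
        (isCompact_singleton.prod hC)
      refine h1.comp (Continuous.continuousOn (by fun_prop)) fun m hm => ?_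
      exact ⟨⟨hp, hG.measured.dom_sub m hm⟩, rfl, hDC hm⟩
    exact hcont.aestronglyMeasurable hG.measured.dom_meas
  · -- domination
    have hN' : N ∈ 𝓝[{p | Adm D.t D.n p.1 p.2}] p₁ := mem_nhdsWithin_of_mem_nhds hNnhds
    filter_upwards [hN', self_mem_nhdsWithin] with p hpN hp
    refine ae_restrict_of_forall_mem hG.measured.dom_meas fun m hm => ?_
    exact hB (p, m) ⟨⟨hp, hG.measured.dom_sub m hm⟩, hpN, hDC hm⟩
  · -- the bound is integrable
    exact integrable_const B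
  · -- pointwise continuity
    refine ae_restrict_of_forall_mem hG.measured.dom_meas fun m hm => ?_
    have h1 := integrand_continuousOn989 D hG (N ×ˢ ({m} : Set (A0.G K)))
      (hN.prod isCompact_singleton)
    have h2 : ContinuousOn (fun p => integrand989 D (p, m))
        ({p | Adm D.t D.n p.1 p.2} ∩ N) := by
      refine h1.comp (Continuous.continuousOn (by fun_prop)) fun p hp => ?_
      exact ⟨⟨hp.1, hG.measured.dom_sub m hm⟩, hp.2, rfl⟩
    have h3 := h2.continuousWithinAt ⟨hp₁, mem_of_mem_nhds hNnhds⟩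
    exact (continuousWithinAt_inter hNnhds).1 h3

/-! ## Continuity of the lift -/

/-- The lift is continuous at the points of `GL₂(𝔸_K)⁺`. -/
theorem lift_continuousAt_of_adm989 (hTO : WL.TorusOpenC) (D : KData K) (hT1 : T1.T1Out K)
    (hG : D.Good) (φ : A0.G K → ℂ) (hφ : D.IsLift φ) (g₁ m₁ : A0.G K)
    (h : Adm D.t D.n g₁ m₁) : ContinuousAt φ g₁ := by
  have hΦ := Phi_continuousWithinAt989 D hT1 hG (g₁, m₁) h
  have hval : ∀ g m : A0.G K, Adm D.t D.n g m → φ g = Phi989 D (g, m) :=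
    fun g m hgm => hφ.formula g m hgm
  unfold ContinuousAt
  rw [hval g₁ m₁ h]
  intro W hW
  have h1 := hΦ hW
  rw [Filter.mem_map, mem_nhdsWithin_iff_exists_mem_nhds_inter] at h1
  obtain ⟨N, hN, hNsub⟩ := h1
  obtain ⟨U₁, hU₁, V₁, hV₁, hUV⟩ := mem_nhds_prod_iff.1 hN
  obtain ⟨U₂, hU₂, hpart⟩ := hTO K D.t D.n hG.torus.irred g₁ m₁ h V₁ hV₁
  rw [Filter.mem_map]
  filter_upwards [hU₁, hU₂] with g hg₁ hg₂
  obtain ⟨m, hmV, hadm⟩ := hpart g hg₂
  show φ g ∈ W
  rw [hval g m hadm]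
  exact hNsub ⟨hUV (Set.mk_mem_prod hg₁ hmV), hadm⟩

/-- `GL₂(𝔸_K)⁺` is open. -/
theorem isOpen_inGPlus989 (hTO : WL.TorusOpenC) (t n : K) (hirr : ∀ x : K, x ^ 2 - t * x + n ≠ 0) :
    IsOpen {g : A0.G K | InGPlus t n g} := by
  rw [isOpen_iff_mem_nhds]
  rintro g₀ ⟨m₀, h₀⟩
  obtain ⟨U, hU, hpart⟩ := hTO K t n hirr g₀ m₀ h₀ Set.univ Filter.univ_mem
  filter_upwards [hU] with g hg
  obtain ⟨m, -, hadm⟩ := hpart g hg
  exact ⟨m, hadm⟩

/-- **A2.03.3 LIFT-CONT.**  The theta lift of good data is continuous. -/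
theorem liftCont989 : WL.LiftContC := by
  intro hTO K _ _ D η hT1 hG _ φ hφ
  rw [continuous_iff_continuousAt]
  intro g₀
  by_cases hS : ∃ γ : GL (Fin 2) K, InGPlus D.t D.n (ratG γ * g₀)
  · obtain ⟨γ, m₁, hadm⟩ := hS
    have h1 : ContinuousAt φ (ratG γ * g₀) :=
      lift_continuousAt_of_adm989 hTO D hT1 hG φ hφ (ratG γ * g₀) m₁ hadm
    have h2 : φ = fun g => φ (ratG γ * g) := funext fun g => (hφ.left_inv γ g).symm
    rw [h2]
    exact ContinuousAt.comp (f := fun g : A0.G K => ratG γ * g) h1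
      (continuous_const.mul continuous_id).continuousAt
  · have hopen := isOpen_inGPlus989 hTO D.t D.n hG.torus.irred
    have hU : {g : A0.G K | InGPlus D.t D.n (g₀⁻¹ * g)} ∈ 𝓝 g₀ := by
      refine (hopen.preimage (f := fun g : A0.G K => g₀⁻¹ * g)
        (continuous_const.mul continuous_id)).mem_nhds ?_
      show InGPlus D.t D.n (g₀⁻¹ * g₀)
      rw [inv_mul_cancel]
      exact inGPlus_one989 D.t D.n
    have hzero : ∀ᶠ g in 𝓝 g₀, φ g = 0 := by
      filter_upwards [hU] with g hg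
      refine hφ.off g fun γ hγ => hS ⟨γ, ?_⟩
      have h3 := inGPlus_mul_inv989 D.t D.n hγ hg
      have h4 : ratG γ * g * (g₀⁻¹ * g)⁻¹ = ratG γ * g₀ := by group
      rwa [h4] at h3
    exact continuousAt_const.congr (hzero.mono fun g hg => hg.symm)

end Fermat.Agent.LT.A2.H989

end
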